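import Mathlib
import Fermat.Agent.MUL.S17.H.Global
import Fermat.Agent.MUL.S17.H.ImmSec
import Fermat.Agent.MUL.S17.H.Pairing.Defs
import Fermat.Agent.MUL.Orig.S17.H.NST

section MergeWrap_S17_H_Pos_Defs -- from S17/H/Pos/Defs.lean

set_option autoImplicit false

/-!
# S17, package H, seat GB (positivity): internal definitions, Props and the assembly

Sub-architect: helper99.  Target: `positivityThm_of ... : PositivityThm S` (this file, PROVED from
the three internal Props `AdjThm`, `DetThm`, `PosThm`).  Plan: `NOTES/blueprint-S17-GB.md`.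

Notation: `F = FN N`, `h = Pairing.hRR N`, `S : HSetup N`, `V₁ = secSpace S.P₀ S.e 1 = L(e P₀)`,
`g = genusFF Qbar (FN N)`.

* `Unif S`        : Galois-equivariant uniformizers `π_P`, of the form `φ_a - φ_a(P)` for `P ≠ P₀`.
* `kappa`, `kapglob` : `κ_v(P) = log θ_v(P; π_P)` and `Σ_v κ_v(P)`.
* `lamglob`, `famloc`, `famglob` : `Σ_v log ‖φ(P)‖_v`,  `log ‖ξ(P)‖_v = log max_i |ξ_i(P)|_v` and
  `Σ_v log ‖ξ(P)‖_v` for a finite family `ξ` of functions.
* `K1`, `K2`, `famH` : `Σ_P A(P) κ(P)`, `Σ_P A(P)² κ(P)`, `Σ_P A(P) Σ_v log ‖ξ(P)‖_v`.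
* `AdjThm`  (seat ADJ) : `-I(a,b) ≥ 2 d n(A) - I(A,A) + K2(A) - C` for suitable representatives.
* `DetThm`  (seats DET, DATA) : `I(A,A) - (K2(A) - K1(A)) ≤ (2/|X|) Σ_{ξ ∈ X} H_ξ(A) + C` for a
  Galois-stable finite set `X` of `d`-tuples of sections (from a finite list of such sets) of
  polar degree `≤ g + d - 2`.
* `PosThm`  (seats KAPPA, POS) : `K1(A) + 2 d n(A) - (2/|X|) Σ_{ξ ∈ X} H_ξ(A) ≥ n(A) - C`.
-/

noncomputable section

open AlgebraicCurve ModularCurve Fermat.Agent.RR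

namespace Fermat.Agent.S17.Pos

variable {N : ℕ} [NeZero N]

/-- Galois-equivariant uniformizers: `π_P` is a uniformizer at `P`, `σ(π_P) = π_{σP}`, and for
`P ≠ P₀` it is of the form `φ_a - φ_a(P)`. -/
structure Unif (S : HSetup N) where
  /-- the uniformizer at `P` -/
  π : PtN N → FN N
  ord_eq : ∀ P : PtN N, P.ord (π P) = 1
  equivariant : ∀ (σ : GQ) (P : PtN N), Pts.galFun N σ (π P) = π (Pts.galPlace N σ P)
  coord_form : ∀ P : PtN N, P ≠ S.P₀ → ∃ a : Fin (S.r + 1),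
    π P = S.φ a - algebraMap Qbar (FN N) (val P (S.φ a))

/-- `κ_v(P) = log θ_v(P; π_P)` -/
def kappa (S : HSetup N) (U : Unif S) (v : S.𝔸.ι) (P : PtN N) : ℝ :=
  Real.log (theta S.𝔸 v S.φ P (U.π P))

/-- `κ(P) = Σ_v κ_v(P)` -/
def kapglob (S : HSetup N) (U : Unif S) (P : PtN N) : ℝ := ∑ᶠ v : S.𝔸.ι, kappa S U v P

/-- `Σ_v log ‖(φ_a(P))_a‖_v` -/
def lamglob (S : HSetup N) (P : PtN N) : ℝ := ∑ᶠ v : S.𝔸.ι, lamloc S.𝔸 v S.φ P

/-- `log ‖ξ(P)‖_v = log max_i |ξ_i(P)|_v` for a finite family `ξ` (used at points where all `ξ_i`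
are regular and not all vanish). -/
def famloc (S : HSetup N) (v : S.𝔸.ι) {n : ℕ} (ξ : Fin (n + 1) → FN N) (P : PtN N) : ℝ :=
  Real.log (vnorm S.𝔸 v fun i => val P (ξ i))

/-- `Σ_v log ‖ξ(P)‖_v` -/
def famglob (S : HSetup N) {n : ℕ} (ξ : Fin (n + 1) → FN N) (P : PtN N) : ℝ :=
  ∑ᶠ v : S.𝔸.ι, famloc S v ξ P

/-- `K₁(A) = Σ_P A(P) κ(P)` -/
def K1 (S : HSetup N) (U : Unif S) (A : DivN N) : ℝ :=
  ∑ P ∈ A.support, (A P : ℝ) * kapglob S U P

/-- `K₂(A) = Σ_P A(P)² κ(P)` -/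
def K2 (S : HSetup N) (U : Unif S) (A : DivN N) : ℝ :=
  ∑ P ∈ A.support, (A P : ℝ) ^ 2 * kapglob S U P

/-- `H_ξ(A) = Σ_P A(P) Σ_v log ‖ξ(P)‖_v` -/
def famH (S : HSetup N) {n : ℕ} (ξ : Fin (n + 1) → FN N) (A : DivN N) : ℝ :=
  ∑ P ∈ A.support, (A P : ℝ) * famglob S ξ P

/-- the average `(1/|X|) Σ_{ξ ∈ X} H_ξ(A)` over a finite set of families -/
def avgH (S : HSetup N) {n : ℕ} (X : Finset (Fin (n + 1) → FN N)) (A : DivN N) : ℝ :=
  (1 / (X.card : ℝ)) * ∑ ξ ∈ X, famH S ξ A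

/-- `A` is an admissible divisor of degree `d`: effective, Galois-stable, `P₀ ∉ A`. -/
structure IsAdm (S : HSetup N) (A : DivN N) (d : ℕ) : Prop where
  nonneg : 0 ≤ A
  galStable : GalStable N A
  base : A S.P₀ = 0
  degree_eq : Divisor.degree A = d

/-- the family `ξ` has no base point on `A` -/
def NoBase {n : ℕ} (ξ : Fin (n + 1) → FN N) (A : DivN N) : Prop :=
  ∀ P ∈ A.support, ∃ i, val P (ξ i) ≠ 0

/-- **a determinant datum of dimension `n + 1`**: a nonempty finite Galois-stable set `X` of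
`(n+1)`-tuples of nonzero sections of `V₁`, each tuple with a common zero divisor `B` of degree
`≥ e - (g + n - 1)`  (so its polar divisor `e P₀ - B` has degree `≤ g + d - 2`, `d = n + 1`). -/
structure IsDetDatum (S : HSetup N) (n : ℕ) (X : Finset (Fin (n + 1) → FN N)) : Prop where
  nonempty : X.Nonempty
  galStable : ∀ (σ : GQ), ∀ ξ ∈ X, (fun i => Pts.galFun N σ (ξ i)) ∈ X
  mem : ∀ ξ ∈ X, ∀ i, ξ i ∈ secSpace S.P₀ S.e 1
  ne_zero : ∀ ξ ∈ X, ∀ i, ξ i ≠ 0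
  base : ∀ ξ ∈ X, ∃ B : DivN N, 0 ≤ B ∧
    (S.e : ℤ) ≤ Divisor.degree B + (genusFF Qbar (FN N) : ℤ) + n - 1 ∧
    ∀ i, B ≤ zdiv (Pairing.hRR N) S.P₀ S.e 1 (ξ i)

/-- **Seat ADJ.**  Adjunction: for the canonical divisor `A` of `x` (degree `d`) there are
admissible representatives `a`, `b` of `x` with disjoint supports and
`-I(a,b) ≥ 2 d n(A) - I(A,A) + K₂(A) - C`.
(`I(A,A) = Σ_{P ≠ Q} A(P) A(Q) g(P,Q)` because `g_v(P,P) = 0` by convention.) -/
def AdjThm (S : HSetup N) (U : Unif S) : Prop :=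
  ∃ C : ℝ, ∀ (x : MW N) (A : DivN N) (d : ℕ), IsCanon S (x : JZero N) A d →
    ∃ a b : DivN N, IsRep S (x : JZero N) a ∧ IsRep S (x : JZero N) b ∧
      Disjoint a.support b.support ∧
      2 * d * nHeight S A - iPair S A A + K2 S U A - C ≤ - iPair S a b

/-- **Seats DET + DATA.**  The determinant bound: there is a finite list `𝓛` of determinant data
such that every canonical divisor `A` of degree `d = n + 1 ≥ 1` has a datum `X` in the list,
without base points on `A`, with `I(A,A) - (K₂(A) - K₁(A)) ≤ 2 avg_{ξ ∈ X} H_ξ(A) + C`. -/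
def DetThm (S : HSetup N) (U : Unif S) : Prop :=
  ∃ (𝓛 : Finset (Σ n : ℕ, Finset (Fin (n + 1) → FN N))) (C : ℝ),
    (∀ Y ∈ 𝓛, IsDetDatum S Y.1 Y.2) ∧
    ∀ (x : MW N) (A : DivN N) (n : ℕ), IsCanon S (x : JZero N) A (n + 1) →
      ∃ X : Finset (Fin (n + 1) → FN N), (⟨n, X⟩ : Σ n : ℕ, Finset (Fin (n + 1) → FN N)) ∈ 𝓛 ∧
        (∀ ξ ∈ X, NoBase ξ A) ∧
        iPair S A A - (K2 S U A - K1 S U A) ≤ 2 * avgH S X A + C

/-- **Seats KAPPA + POS.**  For every determinant datum `X` of dimension `d = n + 1`: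
`K₁(A) + 2 d n(A) - 2 avg_{ξ ∈ X} H_ξ(A) ≥ n(A) - C` for all admissible `A` of degree `d ≤ g`
without base points of `X`. -/
def PosThm (S : HSetup N) (U : Unif S) : Prop :=
  ∀ (n : ℕ) (X : Finset (Fin (n + 1) → FN N)), IsDetDatum S n X →
    ∃ C : ℝ, ∀ A : DivN N, IsAdm S A (n + 1) → (∀ ξ ∈ X, NoBase ξ A) →
      nHeight S A - C ≤ K1 S U A + 2 * (n + 1 : ℕ) * nHeight S A - 2 * avgH S X A

/-- the canonical divisor of a rational class is admissible (input: `Move.IsCanon.galStable`). -/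
def CanonAdm (S : HSetup N) : Prop :=
  ∀ (x : MW N) (A : DivN N) (d : ℕ), IsCanon S (x : JZero N) A d → IsAdm S A d

/-- **Assembly of seat GB.** -/
theorem positivityThm_of (S : HSetup N) (U : Unif S) (hC : CanonAdm S) (hAdj : AdjThm S U)
    (hDet : DetThm S U) (hPos : PosThm S U) : PositivityThm S := by
  classical
  obtain ⟨C₁, hadj⟩ := hAdj
  obtain ⟨𝓛, C₂, hdat, hdet⟩ := hDet
  -- a uniform constant for the finitely many data
  have hex : ∀ Y : (Σ n : ℕ, Finset (Fin (n + 1) → FN N)), ∃ C : ℝ, Y ∈ 𝓛 →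
      ∀ A : DivN N, IsAdm S A (Y.1 + 1) → (∀ ξ ∈ Y.2, NoBase ξ A) →
        nHeight S A - C ≤ K1 S U A + 2 * (Y.1 + 1 : ℕ) * nHeight S A - 2 * avgH S Y.2 A := by
    intro Y
    by_cases hY : Y ∈ 𝓛
    · obtain ⟨C, hCY⟩ := hPos Y.1 Y.2 (hdat Y hY)
      exact ⟨C, fun _ => hCY⟩
    · exact ⟨0, fun h => absurd h hY⟩
  choose Cf hCf using hex
  set C₃ : ℝ := ∑ Y ∈ 𝓛, |Cf Y| with hC₃
  have hC₃' : ∀ Y ∈ 𝓛, Cf Y ≤ C₃ := fun Y hY =>
    (le_abs_self _).trans (Finset.single_le_sum (f := fun Y => |Cf Y|)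
      (fun _ _ => abs_nonneg _) hY)
  refine ⟨1, |C₁| + |C₂| + C₃, one_pos, ?_⟩
  intro x A d hA
  obtain ⟨a, b, ha, hb, hab, hineq⟩ := hadj x A d hA
  refine ⟨a, b, ha, hb, hab, ?_⟩
  have hC₃nn : 0 ≤ C₃ := Finset.sum_nonneg fun _ _ => abs_nonneg _
  rcases Nat.eq_zero_or_pos d with hd | hd
  · -- `d = 0`: `A = 0`
    subst hd
    have hadm := hC x A 0 hA
    have hA0 : A = 0 := by
      have h1 : Divisor.degree A = 0 := by exact_mod_cast hadm.degree_eq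
      have h2 : ∀ P, 0 ≤ A P := fun P => Finsupp.le_def.mp hadm.nonneg P
      rw [Fermat.Agent.RR.degree_eq_sum (Pairing.hRR N)] at h1
      ext P
      by_cases hP : P ∈ A.support
      · have := (Finset.sum_eq_zero_iff_of_nonneg fun Q _ => h2 Q).mp h1 P hP
        simpa using this
      · simpa using Finsupp.notMem_support_iff.mp hP
    have e1 : nHeight S A = 0 := by rw [hA0]; simp [nHeight]
    have e2 : iPair S A A = 0 := by rw [hA0]; simp [iPair]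
    have e3 : K2 S U A = 0 := by rw [hA0]; simp [K2]
    rw [e1, e2, e3] at hineq
    rw [e1]
    have := le_abs_self C₁
    have := abs_nonneg C₂
    simp only [Nat.cast_zero, mul_zero, sub_zero, add_zero, zero_sub] at hineq
    linarith [neg_abs_le C₁]
  · obtain ⟨n, rfl⟩ : ∃ n, d = n + 1 := ⟨d - 1, by omega⟩
    obtain ⟨X, hX, hnb, hdetA⟩ := hdet x A n hA
    have hpos := hCf ⟨n, X⟩ hX A (hC x A (n + 1) hA) hnb
    have h3 := hC₃' ⟨n, X⟩ hX
    have h4 := le_abs_self C₁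
    have h5 := le_abs_self C₂
    simp only at hpos h3
    push_cast at hineq hpos ⊢
    linarith

end Fermat.Agent.S17.Pos
end
end MergeWrap_S17_H_Pos_Defs
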