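import Mathlib
import Fermat.Agent.MUL.S17.H.Pos.Defs
import Fermat.Agent.MUL.S17.H.Pairing.Final
import Fermat.Agent.MUL.S17.H.WF1

section MergeWrap_S17_H_Pos_AdjFin -- from S17/H/Pos/AdjFin.lean

set_option autoImplicit false
set_option linter.unusedSectionVars false

/-!
# S17, package H, seat GB-ADJ, part 1: finiteness in `v` and the comparison `I(A, P₀) = n(A) + O(1)`

* `adj_finite_kappa`, `adj_finite_lamloc`, `adj_finite_log_cnorm` : finite supports in `v`.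
* `adj_log_secSize_one`   : `log |1|_v(P) = - lamloc_v(P)` for `P ≠ P₀`.
* `adj_local_base`        : `|e g_v(P,P₀) - lamloc_v(P) - log ‖1‖_v| ≤ γ_v` for `P ≠ P₀`.
* `adj_global_base`       : `|e g(P,P₀) - lamglob(P) - c₁| ≤ Σ_v γ_v` for `P ≠ P₀`.
-/

noncomputable section

open AlgebraicCurve ModularCurve Fermat.Agent.RR Fermat.Agent.S17.Pairing

namespace Fermat.Agent.S17.Pos

variable {N : ℕ} [NeZero N]

/-! ### finite supports -/

/-- `log (sup_i |a_i|_v) = 0` for almost all `v` -/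
theorem adj_finite_log_sup' (𝔸 : AbsSys) {ι : Type*} [Fintype ι] [Nonempty ι] (a : ι → Qbar) :
    {v : 𝔸.ι | Real.log (Finset.univ.sup' Finset.univ_nonempty
      (fun i => 𝔸.abv v (a i))) ≠ 0}.Finite := by
  by_cases ha : ∃ i, a i ≠ 0
  · refine (finite_sup'_ne_one 𝔸 a ha).subset ?_
    intro v hv
    simp only [Set.mem_ofPred_eq, ne_eq] at hv ⊢
    intro h1
    apply hv
    rw [h1, Real.log_one]
  · rw [not_exists] at ha
    have ha' : ∀ i, a i = 0 := fun i => not_not.mp (ha i)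
    have : {v : 𝔸.ι | Real.log (Finset.univ.sup' Finset.univ_nonempty
        (fun i => 𝔸.abv v (a i))) ≠ 0} = ∅ := by
      ext v
      simp only [Set.mem_ofPred_eq, ne_eq, Set.mem_empty_iff_false, iff_false, not_not]
      rw [sup'_eq_zero 𝔸 a v ha', Real.log_zero]
    rw [this]
    exact Set.finite_empty

theorem adj_finite_lamloc (S : HSetup N) (P : PtN N) :
    {v : S.𝔸.ι | lamloc S.𝔸 v S.φ P ≠ 0}.Finite :=
  adj_finite_log_sup' S.𝔸 (fun a => val P (S.φ a))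

theorem adj_finite_log_cnorm (S : HSetup N) {d : ℕ}
    (b : Module.Basis (Fin (d + 1)) Qbar (secSpace S.P₀ S.e 1)) (f : FN N) :
    {v : S.𝔸.ι | Real.log (cnorm S.𝔸 v b f) ≠ 0}.Finite := by
  classical
  by_cases hf : f ∈ secSpace S.P₀ S.e 1
  · have := adj_finite_log_sup' S.𝔸 (fun i => b.repr ⟨f, hf⟩ i)
    refine this.subset ?_
    intro v hv
    simp only [Set.mem_ofPred_eq, ne_eq] at hv ⊢
    unfold cnorm at hv
    rw [dif_pos hf] at hv
    exact hv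
  · have : {v : S.𝔸.ι | Real.log (cnorm S.𝔸 v b f) ≠ 0} = ∅ := by
      ext v
      simp only [Set.mem_ofPred_eq, ne_eq, Set.mem_empty_iff_false, iff_false, not_not]
      unfold cnorm
      rw [dif_neg hf, Real.log_zero]
    rw [this]
    exact Set.finite_empty

theorem adj_finite_kappa (S : HSetup N) (U : Unif S) (P : PtN N) :
    {v : S.𝔸.ι | kappa S U v P ≠ 0}.Finite := by
  classical
  have h1 := adj_finite_log_sup' S.𝔸
    (fun p : Fin (S.r + 1) × Fin (S.r + 1) =>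
      val P ((algebraMap Qbar (FN N) (coord S.φ P p.2) * S.φ p.1
        - algebraMap Qbar (FN N) (coord S.φ P p.1) * S.φ p.2) / (S.φ (pivot S.φ P) * U.π P)))
  have h2 := finite_sup'_ne_one S.𝔸 (coord S.φ P) ⟨pivot S.φ P, by
    rw [S.isEmbBasis.coord_pivot P]; exact one_ne_zero⟩
  refine (h1.union h2).subset ?_
  intro v hv
  by_contra hcon
  simp only [Set.mem_union, Set.mem_ofPred_eq, ne_eq, not_or, not_not] at hcon
  obtain ⟨e1, e2⟩ := hcon
  apply hv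
  unfold kappa theta vnorm
  rw [e2, one_pow, div_one]
  exact e1

/-! ### the section `1` -/

theorem adj_one_mem (S : HSetup N) : (1 : FN N) ∈ secSpace S.P₀ S.e 1 := by
  have := S.isEmbBasis.mem 0
  rw [S.isEmbBasis.zero_eq_one] at this
  unfold secSpace
  rwa [one_mul]

theorem adj_zdiv_one (S : HSetup N) :
    zdiv (hRR N) S.P₀ S.e 1 (1 : FN N) = Finsupp.single S.P₀ ((1 * S.e : ℕ) : ℤ) := by
  unfold zdiv
  rw [divOf_one, zero_add]

theorem adj_vnorm_div (𝔸 : AbsSys) (v : 𝔸.ι) {n : ℕ} (x : Fin (n + 1) → Qbar) (c : Qbar) :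
    vnorm 𝔸 v (fun a => x a / c) = vnorm 𝔸 v x / 𝔸.abv v c := by
  rcases eq_or_ne c 0 with rfl | hc
  · simp only [div_zero, map_zero]
    unfold vnorm
    exact sup'_eq_zero 𝔸 (fun _ : Fin (n + 1) => (0 : Qbar)) v (fun _ => rfl)
  have hc' : 0 < 𝔸.abv v c := (𝔸.abv v).pos hc
  apply le_antisymm
  · unfold vnorm
    apply Finset.sup'_le
    intro a _
    rw [map_div₀]
    exact div_le_div_of_nonneg_right (abv_le_vnorm 𝔸 v x a) hc'.le
  · obtain ⟨a, ha⟩ := exists_abv_eq_vnorm 𝔸 v x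
    rw [← ha, ← map_div₀]
    exact abv_le_vnorm 𝔸 v (fun a => x a / c) a

/-- for `P ≠ P₀`: `‖coord P‖_v = ‖(φ_a(P))_a‖_v / |φ_{a₀}(P)|_v` -/
theorem adj_vnorm_coord (S : HSetup N) (v : S.𝔸.ι) {P : PtN N} (hP : P ≠ S.P₀) :
    vnorm S.𝔸 v (coord S.φ P)
      = vnorm S.𝔸 v (fun a => val P (S.φ a)) / S.𝔸.abv v (val P (S.φ (pivot S.φ P))) := by
  have he := e_ge_two_genus S
  have hpiv := S.isEmbBasis.ord_pivot_of_ne (hRR N) he hP
  rw [← adj_vnorm_div]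
  congr 1
  funext a
  unfold coord val
  have hnn : 0 ≤ P.ord (S.φ a) := by
    have := pivot_le S.φ P a
    omega
  exact Pts.ev_div (hRR N) P hnn hpiv

/-- for `P ≠ P₀`: `log |1|_v(P) = - lamloc_v(P)` -/
theorem adj_log_secSize_one (S : HSetup N) (v : S.𝔸.ι) {P : PtN N} (hP : P ≠ S.P₀) (π : FN N) :
    Real.log (secSize S.𝔸 v S.φ 1 P π 0 (1 : FN N)) = - lamloc S.𝔸 v S.φ P := by
  have he := e_ge_two_genus S
  have hpiv := S.isEmbBasis.ord_pivot_of_ne (hRR N) he hP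
  have hp0 : S.φ (pivot S.φ P) ≠ 0 := S.isEmbBasis.ne_zero _
  have hv0 : val P (S.φ (pivot S.φ P)) ≠ 0 := Pts.ev_ne_zero_of_ord_eq_zero (hRR N) P hp0 hpiv
  have habs : 0 < S.𝔸.abv v (val P (S.φ (pivot S.φ P))) := (S.𝔸.abv v).pos hv0
  unfold secSize lamloc
  rw [pow_one, pow_zero, mul_one, pow_one, one_div, adj_vnorm_coord S v hP]
  have : val P (S.φ (pivot S.φ P))⁻¹ = (val P (S.φ (pivot S.φ P)))⁻¹ := Pts.ev_inv (hRR N) P hpiv
  rw [this, map_inv₀, ← Real.log_inv]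
  congr 1
  field_simp

/-- `Σ_c (e P₀)(c) g_v(P,c) = e g_v(P,P₀)` -/
theorem adj_glin_single (S : HSetup N) (v : S.𝔸.ι) (P Q : PtN N) (n : ℤ) :
    glin S v P (Finsupp.single Q n) = n * gloc S.𝔸 v S.φ P Q := by
  classical
  unfold glin
  rcases eq_or_ne n 0 with rfl | hn
  · simp
  · rw [Finsupp.support_single _ hn, Finset.sum_singleton, Finsupp.single_eq_same]

/-- the local comparison at `P ≠ P₀` -/
theorem adj_local_base (S : HSetup N) {d : ℕ}
    (b : Module.Basis (Fin (d + 1)) Qbar (secSpace S.P₀ S.e 1)) {γ : MConst S.𝔸}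
    (hγ : ∀ (v : S.𝔸.ι) (f : FN N), f ∈ secSpace S.P₀ S.e 1 → f ≠ 0 →
      ∀ (P : PtN N) (π : FN N), P.ord π = 1 → ∀ m : ℕ,
        (m : ℤ) = zdiv (hRR N) S.P₀ S.e 1 f P →
        |Real.log (secSize S.𝔸 v S.φ 1 P π m f) - Real.log (cnorm S.𝔸 v b f)
          - m * Real.log (theta S.𝔸 v S.φ P π)
          + gsum S.𝔸 v S.φ P (zdiv (hRR N) S.P₀ S.e 1 f)| ≤ γ v)
    (v : S.𝔸.ι) {P : PtN N} (hP : P ≠ S.P₀) :
    |(S.e : ℝ) * gloc S.𝔸 v S.φ P S.P₀ - lamloc S.𝔸 v S.φ P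
      - Real.log (cnorm S.𝔸 v b (1 : FN N))| ≤ γ v := by
  classical
  obtain ⟨π, hπ⟩ := exists_uniformizer P
  have hm : ((0 : ℕ) : ℤ) = zdiv (hRR N) S.P₀ S.e 1 (1 : FN N) P := by
    rw [adj_zdiv_one, Finsupp.single_apply, if_neg (Ne.symm hP)]
    rfl
  have h := hγ v 1 (adj_one_mem S) one_ne_zero P π hπ 0 hm
  rw [adj_log_secSize_one S v hP, gsum_eq_glin, adj_zdiv_one, adj_glin_single] at h
  have e1 : (((1 * S.e : ℕ) : ℤ) : ℝ) = (S.e : ℝ) := by
    push_cast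
    ring
  rw [e1] at h
  have e2 : (S.e : ℝ) * gloc S.𝔸 v S.φ P S.P₀ - lamloc S.𝔸 v S.φ P
      - Real.log (cnorm S.𝔸 v b (1 : FN N))
      = -lamloc S.𝔸 v S.φ P - Real.log (cnorm S.𝔸 v b 1)
        - ((0 : ℕ) : ℝ) * Real.log (theta S.𝔸 v S.φ P π)
        + (S.e : ℝ) * gloc S.𝔸 v S.φ P S.P₀ := by
    push_cast
    ring
  rw [e2]
  exact h

/-- the constant `c₁ = Σ_v log ‖1‖_v` -/
def adjC1 (S : HSetup N) {d : ℕ}
    (b : Module.Basis (Fin (d + 1)) Qbar (secSpace S.P₀ S.e 1)) : ℝ :=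
  ∑ᶠ v : S.𝔸.ι, Real.log (cnorm S.𝔸 v b (1 : FN N))

/-- the global comparison at `P ≠ P₀`: `|e g(P,P₀) - lamglob(P) - c₁| ≤ Σ_v γ_v` -/
theorem adj_global_base (S : HSetup N) {d : ℕ}
    (b : Module.Basis (Fin (d + 1)) Qbar (secSpace S.P₀ S.e 1)) {γ : MConst S.𝔸}
    (hγ : ∀ (v : S.𝔸.ι) (f : FN N), f ∈ secSpace S.P₀ S.e 1 → f ≠ 0 →
      ∀ (P : PtN N) (π : FN N), P.ord π = 1 → ∀ m : ℕ,
        (m : ℤ) = zdiv (hRR N) S.P₀ S.e 1 f P →
        |Real.log (secSize S.𝔸 v S.φ 1 P π m f) - Real.log (cnorm S.𝔸 v b f)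
          - m * Real.log (theta S.𝔸 v S.φ P π)
          + gsum S.𝔸 v S.φ P (zdiv (hRR N) S.P₀ S.e 1 f)| ≤ γ v)
    {P : PtN N} (hP : P ≠ S.P₀) :
    |(S.e : ℝ) * gglob S P S.P₀ - lamglob S P - adjC1 S b| ≤ γ.total := by
  have hf1 : (Function.support fun v : S.𝔸.ι => (S.e : ℝ) * gloc S.𝔸 v S.φ P S.P₀).Finite := by
    refine (glocFinite S P S.P₀).subset ?_
    intro v hv
    rw [Function.mem_support] at hv
    simp only [Set.mem_ofPred_eq, ne_eq]
    intro h0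
    apply hv
    rw [h0, mul_zero]
  have hf2 : (Function.support fun v : S.𝔸.ι => lamloc S.𝔸 v S.φ P).Finite :=
    adj_finite_lamloc S P
  have hf3 : (Function.support fun v : S.𝔸.ι => Real.log (cnorm S.𝔸 v b (1 : FN N))).Finite :=
    adj_finite_log_cnorm S b 1
  have hsum : (S.e : ℝ) * gglob S P S.P₀ - lamglob S P - adjC1 S b
      = ∑ᶠ v : S.𝔸.ι, ((S.e : ℝ) * gloc S.𝔸 v S.φ P S.P₀ - lamloc S.𝔸 v S.φ P
          - Real.log (cnorm S.𝔸 v b (1 : FN N))) := by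
    unfold gglob lamglob adjC1
    rw [mul_finsum, finsum_sub_distrib ((hf1.union hf2).subset (Function.support_sub _ _)) hf3,
      finsum_sub_distrib hf1 hf2]
  rw [hsum]
  exact abs_finsum_le_finsum _ (fun v => γ v) (fun v => adj_local_base S b hγ v hP) γ.finite

end Fermat.Agent.S17.Pos
end
end MergeWrap_S17_H_Pos_AdjFin
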