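import Mathlib
import Fermat.Agent.MUL.S17.H.Pos.Props
import Fermat.Agent.MUL.S17.H.WF1
import Fermat.Agent.MUL.S17.H.Closed
import Fermat.Agent.MUL.Orig.S17.H.ClosedDVR
import Fermat.Agent.MUL.S17.H.L7.PolyRep

section MergeWrap_S17_H_Pos_WeilAll -- from S17/H/Pos/WeilAll.lean

set_option autoImplicit false

/-!
# S17, package H: L4 (WF1) for all families, unconditionally

`weilCompareAll S : WeilCompareAll S` from L2 (`Closed.closed_image_of_placesExhaust`), the (DVR)
lemma (`Closed.exists_place_eq`) and `WF1.weilCompare_of_closed`.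
-/

noncomputable section

open AlgebraicCurve ModularCurve Fermat.Agent.RR

namespace Fermat.Agent.S17.Pos

variable {N : ℕ} [NeZero N]

/-- **L2 (CLOSED)** for every finite family of functions on `X₀(N)`. -/
theorem closedImage_all {n : ℕ} (z : Fin (n + 1) → FN N) : WF1.ClosedImage z := by
  intro y hy hrel
  exact Closed.closed_image_of_placesExhaust (Pairing.hRR N)
    (fun O hO hK => Closed.exists_place_eq (Pairing.hRR N) O hO hK) z y hy hrel

/-- **L4 (WF1)** for all pairs of families with the same polar divisor. -/
theorem weilCompare_all (S : HSetup N) {n n' : ℕ} (u : Fin (n + 1) → FN N)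
    (w : Fin (n' + 1) → FN N) (huw : SamePolar u w) : WeilCompare S.𝔸 u w :=
  WF1.weilCompare_of_closed (Pairing.hRR N) S.𝔸 u w huw (closedImage_all _) (closedImage_all _)

theorem weilCompareAll (S : HSetup N) : WeilCompareAll S := fun _ _ u w huw =>
  weilCompare_all S u w huw

end Fermat.Agent.S17.Pos
end
end MergeWrap_S17_H_Pos_WeilAll
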