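import Mathlib
import Fermat.Agent.MUL.S17.Pts.Galois
import Fermat.Agent.MUL.S17.H.Pos.Props
import Fermat.Agent.MUL.S17.H.Pos.OneProp
import Fermat.Agent.MUL.S17.H.Pairing.Green
import Fermat.Agent.MUL.E.S15.Final

section MergeWrap_S17_H_Pos_Tay -- from S17/H/Pos/Tay.lean

set_option autoImplicit false

/-!
# S17, package H, seat GB-DETLOC (helper96): Taylor coefficients at a place (generic part)

`tay P π l f` is the `l`-th Taylor coefficient of `f` at `P` with respect to the uniformizer `π`: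
`tay 0 = ev P`, `tay (l+1) f = tay l ((f - f(P)) / π)`.

* `tay_add`, `tay_smul`, `tay_sum_smul` : linearity on functions regular at `P`;
* `tay_eq_zero_of_le_ord`, `tay_eq_ev_div_pow` : if `l ≤ ord_P f` then `tay k f = 0` for `k < l`
  and `tay l f = ev P (f / π ^ l)`;
* `le_ord_of_tay_eq_zero` : conversely, if `tay k f = 0` for all `k < l` then `f = 0 ∨ l ≤ ord_P f`;
* `tay_smul_aut` : `tay (g • P) (g • π) l (g • f) = baseAut g (tay P π l f)`.
-/

noncomputable section

open AlgebraicCurve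

namespace Fermat.Agent.S17.Pos

open Fermat.Agent.RR Fermat.Agent.S17.Pts

variable {K F : Type*} [Field K] [Field F] [Algebra K F]

/-- the remainder `(f - f(P)) / π` -/
def tayRem (P : Place K F) (π : F) (f : F) : F := (f - algebraMap K F (ev P f)) / π

/-- the `l`-th Taylor coefficient of `f` at `P` with respect to `π` -/
def tay (P : Place K F) (π : F) : ℕ → F → K
  | 0, f => ev P f
  | l + 1, f => tay P π l (tayRem P π f)

@[simp] theorem tay_zero (P : Place K F) (π : F) (f : F) : tay P π 0 f = ev P f := rfl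

theorem tay_succ (P : Place K F) (π : F) (l : ℕ) (f : F) :
    tay P π (l + 1) f = tay P π l (tayRem P π f) := rfl

theorem ne_zero_of_ord_eq_one {P : Place K F} {π : F} (hπ : P.ord π = 1) : π ≠ 0 := by
  rintro rfl
  rw [Place.ord_zero] at hπ
  exact zero_ne_one hπ

theorem ord_div_eq (P : Place K F) {f g : F} (hf : f ≠ 0) (hg : g ≠ 0) :
    P.ord (f / g) = P.ord f - P.ord g := by
  rw [div_eq_mul_inv, Place.ord_mul P hf (inv_ne_zero hg), Place.ord_inv]
  ring

theorem ord_smul_nonneg (P : Place K F) (c : K) {f : F} (hf : 0 ≤ P.ord f) :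
    0 ≤ P.ord (c • f) := by
  rcases eq_or_ne c 0 with rfl | hc
  · rw [zero_smul, Place.ord_zero]
  rcases eq_or_ne f 0 with rfl | hf0
  · rw [smul_zero, Place.ord_zero]
  rw [Algebra.smul_def, Place.ord_mul P (by simpa using hc) hf0,
    Fermat.Agent.S24Res.ord_algebraMap, zero_add]
  exact hf

theorem ord_add_nonneg (P : Place K F) {f g : F} (hf : 0 ≤ P.ord f) (hg : 0 ≤ P.ord g) :
    0 ≤ P.ord (f + g) :=
  Fermat.Agent.S24Res.ord_nonneg_of_mem P
    (add_mem (Fermat.Agent.S24Res.mem_of_ord_nonneg P hf)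
      (Fermat.Agent.S24Res.mem_of_ord_nonneg P hg))

theorem tay_zero_fun (P : Place K F) (π : F) (l : ℕ) : tay P π l 0 = 0 := by
  induction l with
  | zero => exact ev_zero P
  | succ l ih =>
    rw [tay_succ]
    have : tayRem P π 0 = 0 := by
      unfold tayRem
      rw [ev_zero, map_zero, sub_zero, zero_div]
    rw [this]
    exact ih

theorem ord_sum_smul_nonneg (P : Place K F) {ι : Type*} (s : Finset ι) (c : ι → K)
    (ξ : ι → F) (hξ : ∀ i ∈ s, 0 ≤ P.ord (ξ i)) : 0 ≤ P.ord (∑ i ∈ s, c i • ξ i) := by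
  classical
  induction s using Finset.induction_on with
  | empty => simp
  | insert a s ha ih =>
    rw [Finset.sum_insert ha]
    exact ord_add_nonneg P (ord_smul_nonneg P _ (hξ a (Finset.mem_insert_self a s)))
      (ih fun i hi => hξ i (Finset.mem_insert_of_mem hi))

section RR

variable (h : IsRRField K F)
include h

/-- the remainder of a regular function is regular -/
theorem ord_tayRem_nonneg (P : Place K F) {π : F} (hπ : P.ord π = 1) {f : F}
    (hf : 0 ≤ P.ord f) : 0 ≤ P.ord (tayRem P π f) := by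
  unfold tayRem
  rcases congAt_ev h P hf with h0 | h0
  · rw [← h0, sub_self, zero_div, Place.ord_zero]
  · have hne : f - algebraMap K F (ev P f) ≠ 0 := by
      intro h1
      rw [h1, Place.ord_zero] at h0
      exact lt_irrefl _ h0
    rw [ord_div_eq P hne (ne_zero_of_ord_eq_one hπ), hπ]
    omega

theorem tayRem_add (P : Place K F) (π : F) {f g : F} (hf : 0 ≤ P.ord f) (hg : 0 ≤ P.ord g) :
    tayRem P π (f + g) = tayRem P π f + tayRem P π g := by
  unfold tayRem
  rw [ev_add h P hf hg, map_add, ← add_div]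
  congr 1
  ring

theorem tayRem_smul (P : Place K F) (π : F) (c : K) {f : F} (hf : 0 ≤ P.ord f) :
    tayRem P π (c • f) = c • tayRem P π f := by
  unfold tayRem
  rw [ev_smul_const h P c hf, map_mul, Algebra.smul_def, Algebra.smul_def, ← mul_sub,
    mul_div_assoc]

/-- additivity of the Taylor coefficients on regular functions -/
theorem tay_add (P : Place K F) {π : F} (hπ : P.ord π = 1) (l : ℕ) :
    ∀ {f g : F}, 0 ≤ P.ord f → 0 ≤ P.ord g →
      tay P π l (f + g) = tay P π l f + tay P π l g := by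
  induction l with
  | zero => intro f g hf hg; exact ev_add h P hf hg
  | succ l ih =>
    intro f g hf hg
    rw [tay_succ, tay_succ, tay_succ, tayRem_add h P π hf hg]
    exact ih (ord_tayRem_nonneg h P hπ hf) (ord_tayRem_nonneg h P hπ hg)

/-- homogeneity of the Taylor coefficients on regular functions -/
theorem tay_smul (P : Place K F) {π : F} (hπ : P.ord π = 1) (l : ℕ) :
    ∀ (c : K) {f : F}, 0 ≤ P.ord f → tay P π l (c • f) = c * tay P π l f := by
  induction l with
  | zero => intro c f hf; exact ev_smul_const h P c hf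
  | succ l ih =>
    intro c f hf
    rw [tay_succ, tay_succ, tayRem_smul h P π c hf]
    exact ih c (ord_tayRem_nonneg h P hπ hf)

/-- linearity of the Taylor coefficients on regular functions -/
theorem tay_sum_smul (P : Place K F) {π : F} (hπ : P.ord π = 1) (l : ℕ) {ι : Type*}
    (s : Finset ι) (c : ι → K) (ξ : ι → F) (hξ : ∀ i ∈ s, 0 ≤ P.ord (ξ i)) :
    tay P π l (∑ i ∈ s, c i • ξ i) = ∑ i ∈ s, c i * tay P π l (ξ i) := by
  classical
  induction s using Finset.induction_on with
  | empty => simp [tay_zero_fun]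
  | insert a s ha ih =>
    have h1 : ∀ i ∈ s, 0 ≤ P.ord (ξ i) := fun i hi => hξ i (Finset.mem_insert_of_mem hi)
    have h2 : 0 ≤ P.ord (ξ a) := hξ a (Finset.mem_insert_self a s)
    rw [Finset.sum_insert ha, Finset.sum_insert ha,
      tay_add h P hπ l (ord_smul_nonneg P _ h2) (ord_sum_smul_nonneg P s c ξ h1),
      tay_smul h P hπ l _ h2, ih h1]

/-- the remainder of a function vanishing at `P` is `f / π` -/
theorem tayRem_of_ord_pos (P : Place K F) (π : F) {f : F} (hf : 0 < P.ord f) :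
    tayRem P π f = f / π := by
  unfold tayRem
  have hf0 : f ≠ 0 := by
    rintro rfl
    rw [Place.ord_zero] at hf
    exact lt_irrefl _ hf
  rw [(ev_eq_zero_iff h P hf0 hf.le).mpr hf, map_zero, sub_zero]

/-- if `l ≤ ord_P f` then the Taylor coefficients of index `< l` vanish -/
theorem tay_eq_zero_of_le_ord (P : Place K F) {π : F} (hπ : P.ord π = 1) :
    ∀ (l : ℕ) {f : F}, f ≠ 0 → (l : ℤ) ≤ P.ord f → ∀ k, k < l → tay P π k f = 0 := by
  intro l
  induction l with
  | zero => intro f _ _ k hk; exact absurd hk (Nat.not_lt_zero k)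
  | succ l ih =>
    intro f hf0 hf k hk
    have hpos : 0 < P.ord f := by push_cast at hf; omega
    cases k with
    | zero => exact (ev_eq_zero_iff h P hf0 hpos.le).mpr hpos
    | succ k =>
      rw [tay_succ, tayRem_of_ord_pos h P π hpos]
      have hπ0 := ne_zero_of_ord_eq_one hπ
      refine ih (div_ne_zero hf0 hπ0) ?_ k (Nat.lt_of_succ_lt_succ hk)
      rw [ord_div_eq P hf0 hπ0, hπ]
      push_cast at hf
      omega

/-- if `l ≤ ord_P f` then the `l`-th Taylor coefficient is the value of `f / π ^ l` -/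
theorem tay_eq_ev_div_pow (P : Place K F) {π : F} (hπ : P.ord π = 1) :
    ∀ (l : ℕ) {f : F}, f ≠ 0 → (l : ℤ) ≤ P.ord f → tay P π l f = ev P (f / π ^ l) := by
  intro l
  induction l with
  | zero => intro f _ _; simp
  | succ l ih =>
    intro f hf0 hf
    have hpos : 0 < P.ord f := by push_cast at hf; omega
    have hπ0 := ne_zero_of_ord_eq_one hπ
    rw [tay_succ, tayRem_of_ord_pos h P π hpos, ih (div_ne_zero hf0 hπ0) (by
      rw [ord_div_eq P hf0 hπ0, hπ]
      push_cast at hf
      omega)]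
    congr 1
    rw [pow_succ, div_div, mul_comm]

/-- if the Taylor coefficients of index `< l` of a regular function vanish then `l ≤ ord_P f` -/
theorem le_ord_of_tay_eq_zero (P : Place K F) {π : F} (hπ : P.ord π = 1) :
    ∀ (l : ℕ) {f : F}, f ≠ 0 → 0 ≤ P.ord f → (∀ k, k < l → tay P π k f = 0) →
      (l : ℤ) ≤ P.ord f := by
  intro l
  induction l with
  | zero => intro f _ hf _; simpa using hf
  | succ l ih =>
    intro f hf0 hf hk
    have h0 : ev P f = 0 := hk 0 (Nat.succ_pos l)
    have hpos : 0 < P.ord f := (ev_eq_zero_iff h P hf0 hf).mp h0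
    have hπ0 := ne_zero_of_ord_eq_one hπ
    have hrem := tayRem_of_ord_pos h P π hpos
    have hord : P.ord (f / π) = P.ord f - 1 := by rw [ord_div_eq P hf0 hπ0, hπ]
    have := ih (div_ne_zero hf0 hπ0) (by rw [hord]; omega) (fun k hkl => by
      have := hk (k + 1) (Nat.succ_lt_succ hkl)
      rwa [tay_succ, hrem] at this)
    rw [hord] at this
    push_cast
    omega

/-- Galois equivariance of the Taylor coefficients -/
theorem tay_smul_aut (g : SemilinearAut K F) (P : Place K F) (π : F) (l : ℕ) :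
    ∀ f : F, tay (g • P) (g • π) l (g • f) = SemilinearAut.baseAut g (tay P π l f) := by
  induction l with
  | zero => intro f; exact ev_smul h g P f
  | succ l ih =>
    intro f
    rw [tay_succ, tay_succ, ← ih]
    congr 1
    unfold tayRem
    rw [ev_smul h g P f, smul_div₀', smul_sub, SemilinearAut.smul_algebraMap]

end RR

end Fermat.Agent.S17.Pos
end
end MergeWrap_S17_H_Pos_Tay

section MergeWrap_S17_H_Pos_Jet -- from S17/H/Pos/Jet.lean

set_option autoImplicit false

/-!
# S17, package H, seat GB-DETLOC (helper96): the confluent (jet) determinant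

* `colSet A`, `Col A` : the columns `(P, l)`, `l < A(P)`, of an effective divisor `A`;
* `jetMat U ξ A c`    : the matrix `[tay P π_P l (ξ_i)]_{i, (P,l)}` for an enumeration `c` of the
                        columns;
* `jetSq U n ξ A`     : the square of its determinant (independent of the enumeration; `0` if the
                        number of columns is not `n + 1`);
* `jetSq_galois`, `jetSq_ne_zero` : Galois equivariance and nonvanishing.
-/

noncomputable section

open AlgebraicCurve ModularCurve Fermat.Agent.RR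

namespace Fermat.Agent.S17.Pos

variable {N : ℕ}

/-- the columns `(P, l)`, `l < A(P)` -/
def colSet (A : DivN N) : Finset (Σ _ : PtN N, ℕ) :=
  open Classical in A.support.sigma fun P => Finset.range (A P).toNat

theorem mem_colSet {A : DivN N} {x : Σ _ : PtN N, ℕ} :
    x ∈ colSet A ↔ ((x.2 : ℕ) : ℤ) < A x.1 := by
  classical
  unfold colSet
  rw [Finset.mem_sigma, Finset.mem_range, Finsupp.mem_support_iff]
  constructor
  · rintro ⟨-, h2⟩
    omega
  · intro h
    refine ⟨fun h0 => ?_, by omega⟩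
    rw [h0] at h
    omega

/-- the type of columns -/
abbrev Col (A : DivN N) : Type := ↥(colSet A)

variable [NeZero N]

theorem card_col {A : DivN N} (hA : 0 ≤ A) {n : ℕ}
    (hdeg : Divisor.degree A = ((n + 1 : ℕ) : ℤ)) : Fintype.card (Col A) = n + 1 := by
  classical
  rw [Fintype.card_coe]
  unfold colSet
  rw [Finset.card_sigma]
  simp only [Finset.card_range]
  rw [degree_eq_sum (Pairing.hRR N)] at hdeg
  have h1 : ((∑ P ∈ A.support, (A P).toNat : ℕ) : ℤ) = ∑ P ∈ A.support, A P := by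
    push_cast
    refine Finset.sum_congr rfl fun P _ => ?_
    exact Int.toNat_of_nonneg (Finsupp.le_def.mp hA P)
  have h2 : ((∑ P ∈ A.support, (A P).toNat : ℕ) : ℤ) = ((n + 1 : ℕ) : ℤ) := by
    rw [h1, hdeg]
  exact_mod_cast h2

/-- the jet matrix with respect to an enumeration of the columns -/
def jetMat {S : HSetup N} (U : Unif S) {n : ℕ} (ξ : Fin (n + 1) → FN N) (A : DivN N)
    (c : Fin (n + 1) ≃ Col A) : Matrix (Fin (n + 1)) (Fin (n + 1)) Qbar :=
  fun i t => tay (c t).1.1 (U.π (c t).1.1) (c t).1.2 (ξ i)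

/-- `Δ(ξ, A)²` -/
def jetSq {S : HSetup N} (U : Unif S) (n : ℕ) (ξ : Fin (n + 1) → FN N) (A : DivN N) : Qbar :=
  open Classical in
  if h : Nonempty (Fin (n + 1) ≃ Col A) then (jetMat U ξ A h.some).det ^ 2 else 0

theorem jetMat_eq_submatrix {S : HSetup N} (U : Unif S) {n : ℕ} (ξ : Fin (n + 1) → FN N)
    (A : DivN N) (c c' : Fin (n + 1) ≃ Col A) :
    jetMat U ξ A c' = (jetMat U ξ A c).submatrix id (c'.trans c.symm) := by
  ext i t
  simp [jetMat]

/-- `jetSq` does not depend on the enumeration of the columns -/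
theorem jetSq_eq {S : HSetup N} (U : Unif S) {n : ℕ} (ξ : Fin (n + 1) → FN N) (A : DivN N)
    (c : Fin (n + 1) ≃ Col A) : jetSq U n ξ A = (jetMat U ξ A c).det ^ 2 := by
  classical
  unfold jetSq
  rw [dif_pos ⟨c⟩, jetMat_eq_submatrix U ξ A c (Nonempty.some ⟨c⟩), Matrix.det_permute', mul_pow]
  have : ((Equiv.Perm.sign ((Nonempty.some ⟨c⟩ : Fin (n + 1) ≃ Col A).trans c.symm) : ℤ) :
      Qbar) ^ 2 = 1 := by
    rcases Int.units_eq_one_or (Equiv.Perm.sign
      ((Nonempty.some ⟨c⟩ : Fin (n + 1) ≃ Col A).trans c.symm)) with h | h <;> rw [h] <;> simp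
  rw [this, one_mul]

/-! ### Galois equivariance -/

theorem galDiv_galPlace (σ : GQ) (A : DivN N) (P : PtN N) :
    galDiv N σ A (Pts.galPlace N σ P) = A P :=
  SemilinearAut.divisor_smul_apply_smul _ A P

theorem galPlace_inv_galPlace (σ : GQ) (P : PtN N) :
    Pts.galPlace N σ⁻¹ (Pts.galPlace N σ P) = P := by
  rw [← Pts.galPlace_mul, inv_mul_cancel, Pts.galPlace_one]

theorem galPlace_galPlace_inv (σ : GQ) (P : PtN N) :
    Pts.galPlace N σ (Pts.galPlace N σ⁻¹ P) = P := by
  rw [← Pts.galPlace_mul, mul_inv_cancel, Pts.galPlace_one]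

/-- the action of Galois on the columns -/
def colMap (σ : GQ) (A : DivN N) : Col A ≃ Col (galDiv N σ A) where
  toFun x := ⟨⟨Pts.galPlace N σ x.1.1, x.1.2⟩, by
    have := mem_colSet.mp x.2
    rw [mem_colSet]
    show ((x.1.2 : ℕ) : ℤ) < galDiv N σ A (Pts.galPlace N σ x.1.1)
    rwa [galDiv_galPlace]⟩
  invFun y := ⟨⟨Pts.galPlace N σ⁻¹ y.1.1, y.1.2⟩, by
    have := mem_colSet.mp y.2
    rw [mem_colSet]
    show ((y.1.2 : ℕ) : ℤ) < A (Pts.galPlace N σ⁻¹ y.1.1)
    rwa [← galDiv_galPlace σ A (Pts.galPlace N σ⁻¹ y.1.1), galPlace_galPlace_inv]⟩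
  left_inv x := by
    apply Subtype.ext
    show (⟨Pts.galPlace N σ⁻¹ (Pts.galPlace N σ x.1.1), x.1.2⟩ : Σ _ : PtN N, ℕ) = x.1
    rw [galPlace_inv_galPlace]
  right_inv y := by
    apply Subtype.ext
    show (⟨Pts.galPlace N σ (Pts.galPlace N σ⁻¹ y.1.1), y.1.2⟩ : Σ _ : PtN N, ℕ) = y.1
    rw [galPlace_galPlace_inv]

/-- Galois equivariance of the Taylor coefficients on `X₀(N)` -/
theorem tay_galois (σ : GQ) (P : PtN N) (π f : FN N) (l : ℕ) :
    tay (Pts.galPlace N σ P) (Pts.galFun N σ π) l (Pts.galFun N σ f) = σ (tay P π l f) :=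
  tay_smul_aut (Pairing.hRR N) _ P π l f

/-- **Galois equivariance of `jetSq`.** -/
theorem jetSq_galois {S : HSetup N} (U : Unif S) (σ : GQ) (n : ℕ) (ξ : Fin (n + 1) → FN N)
    (A : DivN N) :
    σ (jetSq U n ξ A) = jetSq U n (fun i => Pts.galFun N σ (ξ i)) (galDiv N σ A) := by
  classical
  by_cases hc : Nonempty (Fin (n + 1) ≃ Col A)
  · obtain ⟨c⟩ := hc
    rw [jetSq_eq U ξ A c, jetSq_eq U _ _ (c.trans (colMap σ A)), map_pow]
    congr 1
    have hmat : jetMat U (fun i => Pts.galFun N σ (ξ i)) (galDiv N σ A) (c.trans (colMap σ A))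
        = (jetMat U ξ A c).map (σ : Qbar →+* Qbar) := by
      ext i t
      simp only [jetMat, Matrix.map_apply, Equiv.trans_apply]
      show tay (Pts.galPlace N σ (c t).1.1) (U.π (Pts.galPlace N σ (c t).1.1)) (c t).1.2
        (Pts.galFun N σ (ξ i)) = σ _
      rw [← U.equivariant σ, tay_galois]
    rw [hmat]
    exact RingHom.map_det (σ : Qbar →+* Qbar) (jetMat U ξ A c)
  · have hc' : ¬ Nonempty (Fin (n + 1) ≃ Col (galDiv N σ A)) := by
      rintro ⟨c'⟩
      exact hc ⟨c'.trans (colMap σ A).symm⟩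
    unfold jetSq
    rw [dif_neg hc, dif_neg hc', map_zero]

/-! ### nonvanishing -/

/-- sections of `V₁` are regular away from `P₀` -/
theorem ord_nonneg_of_mem_secSpace {S : HSetup N} {f : FN N} (hf : f ∈ secSpace S.P₀ S.e 1)
    {P : PtN N} (hP : P ≠ S.P₀) : 0 ≤ P.ord f := by
  classical
  rcases (mem_riemannRochSpace_iff.mp hf) P with h0 | h0
  · rw [h0, Place.ord_zero]
  · rw [Finsupp.single_apply, if_neg (Ne.symm hP)] at h0
    simpa using h0

theorem ne_base_of_mem_colSet {S : HSetup N} {A : DivN N} (hbase : A S.P₀ = 0)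
    (x : Col A) : x.1.1 ≠ S.P₀ := by
  intro h
  have := mem_colSet.mp x.2
  rw [h, hbase] at this
  omega

/-- the jet of a linear combination -/
theorem jetMat_vecMul {S : HSetup N} (U : Unif S) {n : ℕ} (ξ : Fin (n + 1) → FN N)
    (hξ : ∀ i, ξ i ∈ secSpace S.P₀ S.e 1) (A : DivN N) (hbase : A S.P₀ = 0)
    (c : Fin (n + 1) ≃ Col A) (w : Fin (n + 1) → Qbar) (t : Fin (n + 1)) :
    (Matrix.vecMul w (jetMat U ξ A c)) t
      = tay (c t).1.1 (U.π (c t).1.1) (c t).1.2 (∑ i, w i • ξ i) := by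
  rw [tay_sum_smul (Pairing.hRR N) _ (U.ord_eq _) _ Finset.univ w ξ
    (fun i _ => ord_nonneg_of_mem_secSpace (hξ i) (ne_base_of_mem_colSet hbase (c t)))]
  simp only [Matrix.vecMul, dotProduct, jetMat]

/-- a section of `V₁` all of whose Taylor coefficients on the columns of `A` vanish, vanishes
on `A` -/
theorem le_zdiv_of_tay_eq_zero {S : HSetup N} (U : Unif S) {A : DivN N} (hA : 0 ≤ A)
    (hbase : A S.P₀ = 0) {s : FN N} (hs : s ∈ secSpace S.P₀ S.e 1) (hs0 : s ≠ 0)
    (htay : ∀ x : Col A, tay x.1.1 (U.π x.1.1) x.1.2 s = 0) :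
    A ≤ zdiv (Pairing.hRR N) S.P₀ S.e 1 s := by
  classical
  rw [Finsupp.le_def]
  intro P
  by_cases hP : A P = 0
  · rw [hP]
    exact zdiv_nonneg (Pairing.hRR N) S.P₀ S.e 1 hs hs0 P
  · have hPpos : 0 < A P := lt_of_le_of_ne (Finsupp.le_def.mp hA P) (Ne.symm hP)
    have hP0 : P ≠ S.P₀ := by
      rintro rfl
      exact hP hbase
    rw [zdiv_apply, Finsupp.single_apply, if_neg (Ne.symm hP0), add_zero]
    have h1 := le_ord_of_tay_eq_zero (Pairing.hRR N) P (U.ord_eq P) (A P).toNat hs0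
      (ord_nonneg_of_mem_secSpace hs hP0) (fun k hk => by
        have hmem : (⟨P, k⟩ : Σ _ : PtN N, ℕ) ∈ colSet A := by
          rw [mem_colSet]
          show (k : ℤ) < A P
          omega
        exact htay ⟨⟨P, k⟩, hmem⟩)
    rw [Int.toNat_of_nonneg hPpos.le] at h1
    exact h1

/-- **nonvanishing of `jetSq`.** -/
theorem jetSq_ne_zero {S : HSetup N} (U : Unif S) (n : ℕ) (ξ : Fin (n + 1) → FN N) (A : DivN N)
    (hξ : ∀ i, ξ i ∈ secSpace S.P₀ S.e 1) (hli : LinearIndependent Qbar ξ) (hA : 0 ≤ A)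
    (hdeg : Divisor.degree A = ((n + 1 : ℕ) : ℤ)) (hbase : A S.P₀ = 0) (hinj : Inj S ξ A) :
    jetSq U n ξ A ≠ 0 := by
  classical
  have hcard := card_col hA hdeg
  let c : Fin (n + 1) ≃ Col A := (Fintype.equivFinOfCardEq hcard).symm
  rw [jetSq_eq U ξ A c]
  refine pow_ne_zero 2 fun hdet => ?_
  obtain ⟨w, hw0, hw⟩ := Matrix.exists_vecMul_eq_zero_iff.mpr hdet
  set s : FN N := ∑ i, w i • ξ i with hs
  have hsmem : s ∈ Submodule.span Qbar (Set.range ξ) :=
    Submodule.sum_mem _ fun i _ => Submodule.smul_mem _ _ (Submodule.subset_span ⟨i, rfl⟩)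
  have hsV : s ∈ secSpace S.P₀ S.e 1 :=
    Submodule.sum_mem _ fun i _ => Submodule.smul_mem _ _ (hξ i)
  have hs0 : s = 0 := by
    by_contra hne
    refine hne (hinj s hsmem (le_zdiv_of_tay_eq_zero U hA hbase hsV hne fun x => ?_))
    have h1 := jetMat_vecMul U ξ hξ A hbase c w (c.symm x)
    rw [hw, Equiv.apply_symm_apply] at h1
    exact h1.symm
  apply hw0
  funext i
  exact (Fintype.linearIndependent_iff.mp hli) w hs0 i

end Fermat.Agent.S17.Pos
end
end MergeWrap_S17_H_Pos_Jet

section MergeWrap_S17_H_Pos_Adapted -- from S17/H/Pos/Adapted.lean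

set_option autoImplicit false

/-!
# S17, package H, seat GB-DET: a `v`-adapted triangularisation (pure linear algebra)

For every square matrix `M` over a field `K` with an absolute value there is a matrix `c` with
entries of absolute value `≤ 1` and determinant `±1` such that `c * M` is upper triangular.
(Rows of `c` = a basis adapted to the flag cut out by the columns of `M`.)
-/

namespace Fermat.Agent.S17.Pos

open Matrix

variable {K : Type*} [Field K]

/-- A nonzero vector orthogonal to `d` given vectors of `K^(d+1)`. -/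
theorem exists_ne_zero_dotProduct_eq_zero (d : ℕ) (w : Fin d → Fin (d + 1) → K) :
    ∃ s : Fin (d + 1) → K, s ≠ 0 ∧ ∀ l, s ⬝ᵥ w l = 0 := by
  let f : (Fin (d + 1) → K) →ₗ[K] (Fin d → K) :=
    { toFun := fun s l => s ⬝ᵥ w l
      map_add' := fun s t => by ext l; simp [add_dotProduct]
      map_smul' := fun a s => by ext l; simp [smul_dotProduct] }
  have hlt : Module.finrank K (Fin d → K) < Module.finrank K (Fin (d + 1) → K) := by
    simp
  have hker : LinearMap.ker f ≠ ⊥ := LinearMap.ker_ne_bot_of_finrank_lt hlt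
  obtain ⟨s, hs, hs0⟩ := (Submodule.ne_bot_iff _).mp hker
  exact ⟨s, hs0, fun l => congrFun (LinearMap.mem_ker.mp hs) l⟩

/-- Normalisation: a nonzero vector can be scaled to have sup-norm `1`, attained with value `1`. -/
theorem exists_supnorm_normalised (abv : AbsoluteValue K ℝ) (d : ℕ) (s : Fin (d + 1) → K) (hs : s ≠ 0) :
    ∃ (a : K) (i₀ : Fin (d + 1)), a ≠ 0 ∧ a * s i₀ = 1 ∧ ∀ i, abv (a * s i) ≤ 1 := by
  obtain ⟨i₀, -, hi₀⟩ := Finset.exists_max_image Finset.univ (fun i => abv (s i))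
    Finset.univ_nonempty
  have hne : s i₀ ≠ 0 := by
    intro h0
    apply hs
    funext i
    have := hi₀ i (Finset.mem_univ i)
    rw [h0, map_zero] at this
    exact (abv.eq_zero).mp (le_antisymm this (abv.nonneg _))
  refine ⟨(s i₀)⁻¹, i₀, inv_ne_zero hne, inv_mul_cancel₀ hne, fun i => ?_⟩
  rw [map_mul, map_inv₀, inv_mul_le_iff₀ (abv.pos hne), mul_one]
  exact hi₀ i (Finset.mem_univ i)


/-- **`v`-adapted triangularisation.**  For every square matrix `M` there is a matrix `c` with
entries of absolute value `≤ 1` and determinant `±1` such that `c * M` is upper triangular. -/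
theorem exists_adapted_matrix (abv : AbsoluteValue K ℝ) :
    ∀ (d : ℕ) (M : Matrix (Fin d) (Fin d) K), ∃ c : Matrix (Fin d) (Fin d) K,
      (∀ k i, abv (c k i) ≤ 1) ∧ (c.det = 1 ∨ c.det = -1) ∧
        ∀ k l, l < k → (c * M) k l = 0 := by
  intro d
  induction d with
  | zero =>
    intro M
    exact ⟨1, fun k => k.elim0, Or.inl (by simp), fun k => k.elim0⟩
  | succ d ih =>
    intro M
    obtain ⟨s, hs0, hs⟩ := exists_ne_zero_dotProduct_eq_zero d
      (fun l i => M i (Fin.castSucc l))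
    obtain ⟨a, i₀, -, hai₀, hale⟩ := exists_supnorm_normalised abv d s hs0
    obtain ⟨c', hc'le, hc'det, hc'tri⟩ := ih (M.submatrix (Fin.succAbove i₀) Fin.castSucc)
    -- the new matrix
    let c : Matrix (Fin (d + 1)) (Fin (d + 1)) K := fun k =>
      Fin.lastCases (motive := fun _ => Fin (d + 1) → K) (fun i => a * s i)
        (fun k' => Fin.insertNth i₀ (0 : K) (c' k')) k
    have hc_last : ∀ i, c (Fin.last d) i = a * s i := fun i => by
      simp only [c, Fin.lastCases_last]
    have hc_cast_same : ∀ k', c (Fin.castSucc k') i₀ = 0 := fun k' => by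
      simp only [c, Fin.lastCases_castSucc, Fin.insertNth_apply_same]
    have hc_cast_above : ∀ k' j, c (Fin.castSucc k') (i₀.succAbove j) = c' k' j := fun k' j => by
      simp only [c, Fin.lastCases_castSucc, Fin.insertNth_apply_succAbove]
    refine ⟨c, ?_, ?_, ?_⟩
    · intro k i
      induction k using Fin.lastCases with
      | last => rw [hc_last]; exact hale i
      | cast k' =>
        induction i using Fin.succAboveCases i₀ with
        | x => rw [hc_cast_same, map_zero]; exact zero_le_one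
        | p j => rw [hc_cast_above]; exact hc'le k' j
    · have hdet : c.det = (-1) ^ ((Fin.last d : ℕ) + (i₀ : ℕ)) * c'.det := by
        rw [Matrix.det_succ_column c i₀, Fin.sum_univ_castSucc]
        have h1 : ∀ k' : Fin d, (-1 : K) ^ ((Fin.castSucc k' : ℕ) + (i₀ : ℕ)) *
            c (Fin.castSucc k') i₀ *
            (c.submatrix (Fin.castSucc k').succAbove i₀.succAbove).det = 0 := fun k' => by
          rw [hc_cast_same, mul_zero, zero_mul]
        rw [Finset.sum_eq_zero (fun k' _ => h1 k'), zero_add, hc_last, hai₀, mul_one]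
        congr 1
        congr 1
        ext k' j
        simp only [Matrix.submatrix_apply, Fin.succAbove_last]
        exact hc_cast_above k' j
      rcases neg_one_pow_eq_or K ((Fin.last d : ℕ) + (i₀ : ℕ)) with h | h <;>
        rcases hc'det with h' | h' <;> rw [hdet, h, h'] <;> simp
    · intro k l hlk
      induction k using Fin.lastCases with
      | last =>
        have hl : l ≠ Fin.last d := ne_of_lt hlk
        obtain ⟨l', rfl⟩ : ∃ l', l = Fin.castSucc l' :=
          ⟨l.castPred hl, (Fin.castSucc_castPred l hl).symm⟩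
        rw [Matrix.mul_apply]
        have := hs l'
        simp only [dotProduct] at this
        calc ∑ i, c (Fin.last d) i * M i (Fin.castSucc l')
            = ∑ i, a * (s i * M i (Fin.castSucc l')) := by
              refine Finset.sum_congr rfl fun i _ => ?_
              rw [hc_last, mul_assoc]
          _ = a * ∑ i, s i * M i (Fin.castSucc l') := by rw [Finset.mul_sum]
          _ = 0 := by rw [this, mul_zero]
      | cast k' =>
        have hl : l ≠ Fin.last d := fun h => by
          rw [h] at hlk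
          exact absurd hlk (not_lt.mpr (Fin.le_last _))
        obtain ⟨l', rfl⟩ : ∃ l', l = Fin.castSucc l' :=
          ⟨l.castPred hl, (Fin.castSucc_castPred l hl).symm⟩
        have hlk' : l' < k' := by simpa using hlk
        rw [Matrix.mul_apply, Fin.sum_univ_succAbove _ i₀, hc_cast_same, zero_mul, zero_add]
        have := hc'tri k' l' hlk'
        rw [Matrix.mul_apply] at this
        rw [← this]
        refine Finset.sum_congr rfl fun j _ => ?_
        rw [hc_cast_above, Matrix.submatrix_apply]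

end Fermat.Agent.S17.Pos
end MergeWrap_S17_H_Pos_Adapted

section MergeWrap_S17_H_Pos_DetLocal -- from S17/H/Pos/DetLocal.lean

set_option autoImplicit false

noncomputable section

open AlgebraicCurve ModularCurve Fermat.Agent.RR

namespace Fermat.Agent.S17.Pos

/-! ### combinatorics -/

/-- a downward closed finite set of natural numbers contains every number below its
cardinality -/
theorem mem_of_lt_card_of_downward_closed (L : Finset ℕ)
    (hL : ∀ l ∈ L, ∀ l', l' < l → l' ∈ L) {k : ℕ} (hk : k < L.card) : k ∈ L := by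
  by_contra hkL
  have hsub : L ⊆ Finset.range k := by
    intro l hl
    rw [Finset.mem_range]
    by_contra hge
    rcases Nat.lt_or_eq_of_le (not_lt.mp hge) with h | h
    · exact hkL (hL l hl k h)
    · exact hkL (h ▸ hl)
  have := Finset.card_le_card hsub
  rw [Finset.card_range] at this
  omega

/-- a symmetric double sum with zero diagonal is twice its strictly lower triangular part -/
theorem sum_sum_lt_eq_half {m : ℕ} (G : Fin m → Fin m → ℝ) (hsymm : ∀ t t', G t t' = G t' t)
    (hdiag : ∀ t, G t t = 0) :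
    2 * ∑ t, ∑ t' ∈ Finset.univ.filter (· < t), G t t' = ∑ t, ∑ t', G t t' := by
  have h1 : ∀ t : Fin m, ∑ t', G t t'
      = ∑ t' ∈ Finset.univ.filter (· < t), G t t' + ∑ t' ∈ Finset.univ.filter (t < ·), G t t' := by
    intro t
    rw [Finset.sum_filter, Finset.sum_filter, ← Finset.sum_add_distrib]
    refine Finset.sum_congr rfl fun t' _ => ?_
    rcases lt_trichotomy t' t with h | h | h
    · rw [if_pos h, if_neg (not_lt.mpr h.le), add_zero]
    · subst h
      simp [hdiag]
    · rw [if_neg (not_lt.mpr h.le), if_pos h, zero_add]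
  have h2 : ∑ t, ∑ t' ∈ Finset.univ.filter (t < ·), G t t'
      = ∑ t, ∑ t' ∈ Finset.univ.filter (· < t), G t t' := by
    simp only [Finset.sum_filter]
    rw [Finset.sum_comm]
    refine Finset.sum_congr rfl fun t _ => Finset.sum_congr rfl fun t' _ => ?_
    rw [hsymm]
  rw [Finset.sum_congr rfl fun t _ => h1 t, Finset.sum_add_distrib, h2]
  ring

/-- `Σ_{l < m} l = m (m - 1) / 2` in `ℝ` -/
theorem sum_range_cast (m : ℕ) : ∑ l ∈ Finset.range m, (l : ℝ) = ((m : ℝ) ^ 2 - m) / 2 := by
  induction m with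
  | zero => simp
  | succ m ih =>
    rw [Finset.sum_range_succ, ih]
    push_cast
    ring

variable {N : ℕ} [NeZero N]

/-- sums over an enumeration of the columns -/
theorem sum_enum {A : DivN N} {n : ℕ} (c : Fin (n + 1) ≃ Col A) (f : PtN N → ℕ → ℝ) :
    ∑ t, f (c t).1.1 (c t).1.2
      = ∑ P ∈ A.support, ∑ l ∈ Finset.range (A P).toNat, f P l := by
  classical
  rw [Equiv.sum_comp c (fun x : Col A => f x.1.1 x.1.2)]
  rw [Finset.sum_coe_sort (colSet A) (fun x : Σ _ : PtN N, ℕ => f x.1 x.2)]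
  unfold colSet
  rw [Finset.sum_sigma]

/-- an enumeration of the columns which is increasing in the order of the Taylor coefficient -/
theorem exists_good_enum {A : DivN N} {n : ℕ} (hcard : Fintype.card (Col A) = n + 1) :
    ∃ c : Fin (n + 1) ≃ Col A, ∀ t t', (c t').1.2 < (c t).1.2 → t' < t := by
  classical
  let e₀ : Col A ≃ Fin (n + 1) := Fintype.equivFinOfCardEq hcard
  let key : Fin (n + 1) → ℕ := fun t => (e₀.symm t).1.2
  have hmono : Monotone (key ∘ Tuple.sort key) := Tuple.monotone_sort key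
  refine ⟨(Tuple.sort key).trans e₀.symm, fun t t' hlt => ?_⟩
  by_contra hnot
  have hle : t ≤ t' := not_lt.mp hnot
  have h2 : key (Tuple.sort key t) ≤ key (Tuple.sort key t') := hmono hle
  have h3 : key (Tuple.sort key t') < key (Tuple.sort key t) := hlt
  exact absurd h3 (not_lt.mpr h2)


/-! ### `glin` of a sum of points -/

theorem glin_sum_single (S : HSetup N) (v : S.𝔸.ι) (P : PtN N) {ι : Type*} (s : Finset ι)
    (Q : ι → PtN N) :
    Pairing.glin S v P (∑ j ∈ s, Finsupp.single (Q j) (1 : ℤ))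
      = ∑ j ∈ s, gloc S.𝔸 v S.φ P (Q j) := by
  classical
  let φ : DivN N →+ ℝ := Finsupp.liftAddHom
    (fun c => (AddMonoidHom.mulRight (gloc S.𝔸 v S.φ P c)).comp (Int.castAddHom ℝ))
  have hφ : ∀ Z : DivN N, Pairing.glin S v P Z = φ Z := by
    intro Z
    show _ = Finsupp.liftAddHom _ Z
    rw [Finsupp.liftAddHom_apply]
    rfl
  rw [hφ, map_sum]
  refine Finset.sum_congr rfl fun j _ => ?_
  show Finsupp.liftAddHom _ (Finsupp.single (Q j) (1 : ℤ)) = _
  rw [Finsupp.liftAddHom_apply_single]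
  simp

/-! ### the determinant of the adapted basis -/

theorem det_sq_eq_prod_of_adapted {K : Type*} [Field K] {d : ℕ} (a M : Matrix (Fin d) (Fin d) K)
    (hdet : a.det = 1 ∨ a.det = -1) (htri : ∀ k l, l < k → (a * M) k l = 0) :
    M.det ^ 2 = ∏ t, ((a * M) t t) ^ 2 := by
  have h2 : (a * M).det = ∏ t, (a * M) t t :=
    Matrix.det_of_isUpperTriangular (fun i j hij => htri i j hij)
  rw [Matrix.det_mul] at h2
  rw [Finset.prod_pow, ← h2, mul_pow]
  rcases hdet with h | h <;> rw [h] <;> ring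


/-! ### one column -/

/-- the conclusion of `OneStep` for a fixed family `ξ` and a fixed constant `γ` -/
def OneStepFor (S : HSetup N) {n : ℕ} (ξ : Fin (n + 1) → FN N) (γ : MConst S.𝔸) : Prop :=
  ∀ (v : S.𝔸.ι) (c : Fin (n + 1) → Qbar) (P : PtN N) (π : FN N) (l : ℕ)
    (A' : DivN N), c ≠ 0 → P ≠ S.P₀ → (∃ i, val P (ξ i) ≠ 0) → P.ord π = 1 →
    (l : ℤ) = P.ord (∑ i, c i • ξ i) → 0 ≤ A' → A' S.P₀ = 0 → NoBase ξ A' →
    A' ≤ zdiv (Pairing.hRR N) S.P₀ S.e 1 (∑ i, c i • ξ i) →
    Real.log (S.𝔸.abv v (val P ((∑ i, c i • ξ i) / π ^ l)))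
      ≤ Real.log (vnorm S.𝔸 v c) + l * Real.log (theta S.𝔸 v S.φ P π)
        - gsum S.𝔸 v S.φ P A' + famloc S v ξ P + γ v

theorem column_step {S : HSetup N} (U : Unif S) {n : ℕ} (ξ : Fin (n + 1) → FN N)
    (hξ : ∀ i, ξ i ∈ secSpace S.P₀ S.e 1) {A : DivN N} (hbase : A S.P₀ = 0)
    (hnb : NoBase ξ A) (c : Fin (n + 1) ≃ Col A)
    (hc : ∀ t t', (c t').1.2 < (c t).1.2 → t' < t) {γ₁ : MConst S.𝔸}
    (hγ₁ : OneStepFor S ξ γ₁) (v : S.𝔸.ι) (w : Fin (n + 1) → Qbar)
    (hw : ∀ i, S.𝔸.abv v (w i) ≤ 1) (t : Fin (n + 1))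
    (hvan : ∀ t', t' < t → tay (c t').1.1 (U.π (c t').1.1) (c t').1.2 (∑ i, w i • ξ i) = 0)
    (hne : tay (c t).1.1 (U.π (c t).1.1) (c t).1.2 (∑ i, w i • ξ i) ≠ 0) :
    Real.log (S.𝔸.abv v (tay (c t).1.1 (U.π (c t).1.1) (c t).1.2 (∑ i, w i • ξ i)))
      ≤ ((c t).1.2 : ℝ) * kappa S U v (c t).1.1
        - ∑ t' ∈ Finset.univ.filter (· < t), gloc S.𝔸 v S.φ (c t).1.1 (c t').1.1
        + famloc S v ξ (c t).1.1 + γ₁ v := by
  classical
  set s : FN N := ∑ i, w i • ξ i with hs
  set P : PtN N := (c t).1.1 with hP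
  set l : ℕ := (c t).1.2 with hl
  have hcolt : ((l : ℕ) : ℤ) < A P := mem_colSet.mp (c t).2
  have hP0 : P ≠ S.P₀ := ne_base_of_mem_colSet hbase (c t)
  have hPA : P ∈ A.support := by
    rw [Finsupp.mem_support_iff]
    intro h0
    rw [h0] at hcolt
    omega
  have hs0 : s ≠ 0 := by
    intro h0
    apply hne
    rw [h0]
    exact tay_zero_fun _ _ _
  have hw0 : w ≠ 0 := by
    intro h0
    apply hs0
    rw [hs, h0]
    simp
  have hsV : s ∈ secSpace S.P₀ S.e 1 :=
    Submodule.sum_mem _ fun i _ => Submodule.smul_mem _ _ (hξ i)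
  -- every column `(Q, k)` with `k` smaller than the index of an earlier column at `Q` is earlier
  have hearlier : ∀ (Q : PtN N) (k : ℕ) (t₁ : Fin (n + 1)), t₁ ≤ t → (c t₁).1.1 = Q →
      k < (c t₁).1.2 → tay Q (U.π Q) k s = 0 := by
    intro Q k t₁ ht₁ hQ hk
    have hmem : (⟨Q, k⟩ : Σ _ : PtN N, ℕ) ∈ colSet A := by
      rw [mem_colSet]
      have := mem_colSet.mp (c t₁).2
      rw [hQ] at this
      show (k : ℤ) < A Q
      omega
    have hlt : c.symm ⟨⟨Q, k⟩, hmem⟩ < t₁ := by
      apply hc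
      rw [Equiv.apply_symm_apply]
      exact hk
    have := hvan _ (lt_of_lt_of_le hlt ht₁)
    rwa [Equiv.apply_symm_apply] at this
  -- the order of `s` at `P`
  have hreg : 0 ≤ P.ord s := ord_nonneg_of_mem_secSpace hsV hP0
  have hge : (l : ℤ) ≤ P.ord s :=
    le_ord_of_tay_eq_zero (Pairing.hRR N) P (U.ord_eq P) l hs0 hreg
      (fun k hk => hearlier P k t le_rfl rfl hk)
  have hord : (l : ℤ) = P.ord s := by
    refine le_antisymm hge ?_
    by_contra hgt
    have hgt' : ((l + 1 : ℕ) : ℤ) ≤ P.ord s := by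
      push_cast
      omega
    exact hne (tay_eq_zero_of_le_ord (Pairing.hRR N) P (U.ord_eq P) (l + 1) hs0 hgt' l
      (Nat.lt_succ_self l))
  have hlead : tay P (U.π P) l s = val P (s / U.π P ^ l) :=
    tay_eq_ev_div_pow (Pairing.hRR N) P (U.ord_eq P) l hs0 hge
  -- the divisor of the earlier columns
  set T : Finset (Fin (n + 1)) := Finset.univ.filter (· < t) with hT
  set A' : DivN N := ∑ t' ∈ T, Finsupp.single (c t').1.1 (1 : ℤ) with hA'
  have hA'apply : ∀ Q : PtN N, A' Q = ((T.filter fun t' => (c t').1.1 = Q).card : ℤ) := by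
    intro Q
    rw [hA', Finsupp.finsetSum_apply]
    simp only [Finsupp.single_apply]
    rw [Finset.sum_ite, Finset.sum_const_zero, add_zero, Finset.sum_const]
    simp
  have hA'nn : 0 ≤ A' := by
    rw [Finsupp.le_def]
    intro Q
    rw [hA'apply]
    simp
  have hA'supp : ∀ Q ∈ A'.support, ∃ t₁, t₁ < t ∧ (c t₁).1.1 = Q := by
    intro Q hQ
    rw [Finsupp.mem_support_iff, hA'apply] at hQ
    have hne' : (T.filter fun t' => (c t').1.1 = Q).Nonempty := by
      rw [Finset.nonempty_iff_ne_empty]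
      intro h0
      rw [h0] at hQ
      simp at hQ
    obtain ⟨t₁, ht₁⟩ := hne'
    rw [Finset.mem_filter, hT, Finset.mem_filter] at ht₁
    exact ⟨t₁, ht₁.1.2, ht₁.2⟩
  have hA'base : A' S.P₀ = 0 := by
    by_contra h0
    obtain ⟨t₁, -, ht₁⟩ := hA'supp S.P₀ (Finsupp.mem_support_iff.mpr h0)
    exact ne_base_of_mem_colSet hbase (c t₁) ht₁
  have hA'nb : NoBase ξ A' := by
    intro Q hQ
    obtain ⟨t₁, -, ht₁⟩ := hA'supp Q hQ
    refine hnb Q ?_
    rw [Finsupp.mem_support_iff]
    intro h0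
    have := mem_colSet.mp (c t₁).2
    rw [ht₁, h0] at this
    omega
  have hA'le : A' ≤ zdiv (Pairing.hRR N) S.P₀ S.e 1 s := by
    rw [Finsupp.le_def]
    intro Q
    by_cases hQ : A' Q = 0
    · rw [hQ]
      exact zdiv_nonneg (Pairing.hRR N) S.P₀ S.e 1 hsV hs0 Q
    · obtain ⟨t₀, -, ht₀⟩ := hA'supp Q (Finsupp.mem_support_iff.mpr hQ)
      have hQ0 : Q ≠ S.P₀ := ht₀ ▸ ne_base_of_mem_colSet hbase (c t₀)
      rw [zdiv_apply, Finsupp.single_apply, if_neg (Ne.symm hQ0), add_zero, hA'apply]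
      set TQ : Finset (Fin (n + 1)) := T.filter fun t' => (c t').1.1 = Q with hTQ
      set L : Finset ℕ := TQ.image fun t' => (c t').1.2 with hLdef
      have hLcard : L.card = TQ.card := by
        rw [hLdef]
        apply Finset.card_image_of_injOn
        intro t₁ ht₁ t₂ ht₂ h12
        have h1 : (c t₁).1.1 = Q := (Finset.mem_filter.mp ht₁).2
        have h2 : (c t₂).1.1 = Q := (Finset.mem_filter.mp ht₂).2
        apply c.injective
        apply Subtype.ext
        exact Sigma.ext (h1.trans h2.symm) (heq_of_eq h12)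
      have hLdc : ∀ l₁ ∈ L, ∀ l', l' < l₁ → l' ∈ L := by
        intro l₁ hl₁ l' hl'
        rw [hLdef, Finset.mem_image] at hl₁
        obtain ⟨t₁, ht₁, rfl⟩ := hl₁
        have h1 : (c t₁).1.1 = Q := (Finset.mem_filter.mp ht₁).2
        have h1t : t₁ < t := (Finset.mem_filter.mp (Finset.mem_filter.mp ht₁).1).2
        have hmem : (⟨Q, l'⟩ : Σ _ : PtN N, ℕ) ∈ colSet A := by
          rw [mem_colSet]
          have := mem_colSet.mp (c t₁).2
          rw [h1] at this
          show (l' : ℤ) < A Q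
          omega
        have hlt : c.symm ⟨⟨Q, l'⟩, hmem⟩ < t₁ := by
          apply hc
          rw [Equiv.apply_symm_apply]
          exact hl'
        rw [hLdef, Finset.mem_image]
        refine ⟨c.symm ⟨⟨Q, l'⟩, hmem⟩, ?_, ?_⟩
        · rw [hTQ, Finset.mem_filter, hT, Finset.mem_filter]
          refine ⟨⟨Finset.mem_univ _, lt_trans hlt h1t⟩, ?_⟩
          rw [Equiv.apply_symm_apply]
        · rw [Equiv.apply_symm_apply]
      refine le_ord_of_tay_eq_zero (Pairing.hRR N) Q (U.ord_eq Q) TQ.card hs0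
        (ord_nonneg_of_mem_secSpace hsV hQ0) (fun k hk => ?_)
      have hkL : k ∈ L := mem_of_lt_card_of_downward_closed L hLdc (by rw [hLcard]; exact hk)
      rw [hLdef, Finset.mem_image] at hkL
      obtain ⟨t₁, ht₁, hk₁⟩ := hkL
      have h1 : (c t₁).1.1 = Q := (Finset.mem_filter.mp ht₁).2
      have h1t : t₁ < t := (Finset.mem_filter.mp (Finset.mem_filter.mp ht₁).1).2
      have := hvan t₁ h1t
      rwa [h1, hk₁] at this
  -- apply the one-step bound
  have hmain := hγ₁ v w P (U.π P) l A' hw0 hP0 (hnb P hPA) (U.ord_eq P) hord hA'nn hA'base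
    hA'nb hA'le
  have hvn : Real.log (vnorm S.𝔸 v w) ≤ 0 := by
    apply Real.log_nonpos (vnorm_nonneg _ _ _)
    exact Finset.sup'_le _ _ fun i _ => hw i
  have hgs : gsum S.𝔸 v S.φ P A' = ∑ t' ∈ T, gloc S.𝔸 v S.φ P (c t').1.1 := by
    rw [Pairing.gsum_eq_glin, hA', glin_sum_single]
  rw [hlead]
  rw [hgs] at hmain
  unfold kappa
  linarith


/-! ### the local determinant bound -/

/-- **the local determinant bound** (seat DETLOC), from the one-step bound. -/
theorem jetSq_bound {S : HSetup N} (U : Unif S) (h1 : OneStep S) (n : ℕ)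
    (ξ : Fin (n + 1) → FN N) (hξ : ∀ i, ξ i ∈ secSpace S.P₀ S.e 1)
    (hli : LinearIndependent Qbar ξ) :
    ∃ γ : MConst S.𝔸, ∀ (v : S.𝔸.ι) (A : DivN N), 0 ≤ A →
      Divisor.degree A = ((n + 1 : ℕ) : ℤ) → A S.P₀ = 0 → NoBase ξ A → Inj S ξ A →
      Real.log (S.𝔸.abv v (jetSq U n ξ A))
        + ∑ P ∈ A.support, ∑ Q ∈ A.support, (A P : ℝ) * (A Q : ℝ) * gloc S.𝔸 v S.φ P Q
        - ∑ P ∈ A.support, ((A P : ℝ) ^ 2 - (A P : ℝ)) * kappa S U v P
      ≤ 2 * ∑ P ∈ A.support, (A P : ℝ) * famloc S v ξ P + γ v := by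
  classical
  obtain ⟨γ₁, hγ₁⟩ := h1 n ξ hξ hli
  have hγ₁' : OneStepFor S ξ γ₁ := hγ₁
  refine ⟨MConst.nsmul' (2 * (n + 1)) γ₁, fun v A hA hdeg hbase hnb hinj => ?_⟩
  have hcard := card_col hA hdeg
  obtain ⟨c, hc⟩ := exists_good_enum hcard
  obtain ⟨a, ha_le, ha_det, ha_tri⟩ :=
    exists_adapted_matrix (S.𝔸.abv v) (n + 1) (jetMat U ξ A c)
  -- the diagonal entries are Taylor coefficients of the adapted sections
  have hentry : ∀ t l, (a * jetMat U ξ A c) t l
      = tay (c l).1.1 (U.π (c l).1.1) (c l).1.2 (∑ i, a t i • ξ i) := by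
    intro t l
    rw [← jetMat_vecMul U ξ hξ A hbase c (a t) l]
    rfl
  have hjet : jetSq U n ξ A
      = ∏ t, (tay (c t).1.1 (U.π (c t).1.1) (c t).1.2 (∑ i, a t i • ξ i)) ^ 2 := by
    rw [jetSq_eq U ξ A c, det_sq_eq_prod_of_adapted a _ ha_det ha_tri]
    exact Finset.prod_congr rfl fun t _ => by rw [hentry]
  have hjne := jetSq_ne_zero U n ξ A hξ hli hA hdeg hbase hinj
  have htne : ∀ t, tay (c t).1.1 (U.π (c t).1.1) (c t).1.2 (∑ i, a t i • ξ i) ≠ 0 := by
    intro t h0
    apply hjne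
    rw [hjet]
    exact Finset.prod_eq_zero (Finset.mem_univ t) (by rw [h0]; ring)
  -- one column
  have hstep := fun t => column_step U ξ hξ hbase hnb c hc hγ₁' v (a t) (ha_le t) t
    (fun t' ht' => by rw [← hentry]; exact ha_tri t t' ht') (htne t)
  -- the logarithm of `jetSq`
  have hlog : Real.log (S.𝔸.abv v (jetSq U n ξ A))
      = 2 * ∑ t, Real.log (S.𝔸.abv v
          (tay (c t).1.1 (U.π (c t).1.1) (c t).1.2 (∑ i, a t i • ξ i))) := by
    rw [hjet, map_prod, Real.log_prod (fun t _ => by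
      rw [map_pow]
      exact pow_ne_zero 2 (ne_of_gt ((S.𝔸.abv v).pos (htne t)))), Finset.mul_sum]
    refine Finset.sum_congr rfl fun t _ => ?_
    rw [map_pow, Real.log_pow]
    push_cast
    ring
  -- the three sums
  have hsum1 : ∑ t : Fin (n + 1), ((c t).1.2 : ℝ) * kappa S U v (c t).1.1
      = ∑ P ∈ A.support, (((A P : ℝ) ^ 2 - (A P : ℝ)) / 2) * kappa S U v P := by
    rw [sum_enum c (fun P l => (l : ℝ) * kappa S U v P)]
    refine Finset.sum_congr rfl fun P _ => ?_
    rw [← Finset.sum_mul, sum_range_cast]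
    have : (((A P).toNat : ℕ) : ℝ) = (A P : ℝ) := by
      have := Int.toNat_of_nonneg (Finsupp.le_def.mp hA P)
      exact_mod_cast this
    rw [this]
  have hsum2 : ∑ t : Fin (n + 1), famloc S v ξ (c t).1.1
      = ∑ P ∈ A.support, (A P : ℝ) * famloc S v ξ P := by
    rw [sum_enum c (fun P _ => famloc S v ξ P)]
    refine Finset.sum_congr rfl fun P _ => ?_
    rw [Finset.sum_const, Finset.card_range, nsmul_eq_mul]
    have : (((A P).toNat : ℕ) : ℝ) = (A P : ℝ) := by
      have := Int.toNat_of_nonneg (Finsupp.le_def.mp hA P)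
      exact_mod_cast this
    rw [this]
  have hsum3 : 2 * ∑ t : Fin (n + 1), ∑ t' ∈ Finset.univ.filter (· < t),
        gloc S.𝔸 v S.φ (c t).1.1 (c t').1.1
      = ∑ P ∈ A.support, ∑ Q ∈ A.support, (A P : ℝ) * (A Q : ℝ) * gloc S.𝔸 v S.φ P Q := by
    rw [sum_sum_lt_eq_half (fun t t' => gloc S.𝔸 v S.φ (c t).1.1 (c t').1.1)
      (fun t t' => Pairing.gloc_symm S.𝔸 v S.φ _ _) (fun t => Pairing.gloc_self S.𝔸 v S.φ _)]
    rw [sum_enum c (fun P _ => ∑ t', gloc S.𝔸 v S.φ P (c t').1.1)]
    refine Finset.sum_congr rfl fun P _ => ?_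
    rw [Finset.sum_const, Finset.card_range, nsmul_eq_mul,
      sum_enum c (fun Q _ => gloc S.𝔸 v S.φ P Q), Finset.mul_sum]
    refine Finset.sum_congr rfl fun Q _ => ?_
    rw [Finset.sum_const, Finset.card_range, nsmul_eq_mul]
    have hP : (((A P).toNat : ℕ) : ℝ) = (A P : ℝ) := by
      have := Int.toNat_of_nonneg (Finsupp.le_def.mp hA P)
      exact_mod_cast this
    have hQ : (((A Q).toNat : ℕ) : ℝ) = (A Q : ℝ) := by
      have := Int.toNat_of_nonneg (Finsupp.le_def.mp hA Q)
      exact_mod_cast this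
    rw [hP, hQ]
    ring
  -- summing the column bounds
  have htotal := Finset.sum_le_sum fun t (_ : t ∈ Finset.univ) => hstep t
  simp only [Finset.sum_add_distrib, Finset.sum_sub_distrib, Finset.sum_const,
    Finset.card_univ, Fintype.card_fin, nsmul_eq_mul] at htotal
  rw [hsum1, hsum2] at htotal
  rw [hlog, ← hsum3, MConst.nsmul'_apply]
  have hk : ∑ P ∈ A.support, ((A P : ℝ) ^ 2 - (A P : ℝ)) * kappa S U v P
      = 2 * ∑ P ∈ A.support, (((A P : ℝ) ^ 2 - (A P : ℝ)) / 2) * kappa S U v P := by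
    rw [Finset.mul_sum]
    refine Finset.sum_congr rfl fun P _ => ?_
    ring
  rw [hk]
  push_cast at htotal ⊢
  linarith

/-- **Seat DETLOC.** -/
def jetData (S : HSetup N) (U : Unif S) (h1 : OneStep S) : JetData S U where
  jetSq := jetSq U
  galois σ n ξ A _ _ _ := jetSq_galois U σ n ξ A
  ne_zero n ξ A hξ hli hA hdeg hbase hinj := jetSq_ne_zero U n ξ A hξ hli hA hdeg hbase hinj
  bound n ξ hξ hli := jetSq_bound U h1 n ξ hξ hli

end Fermat.Agent.S17.Pos
end
end MergeWrap_S17_H_Pos_DetLocal
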